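/-
S19-LD6 (block LOC-D, architect helper92).  The finite `G`-set `Gal ⧸ Gal(ℚ̄/L)` for `L/ℚ` finite Galois.
Sketches (`U := L.fixingSubgroup`; the action is Mathlib's `MulAction.quotient`; every element is `QuotientGroup.mk σ`, `τ • mk σ = mk (τ * σ)`, and
`mk σ = mk σ'` iff `σ⁻¹ * σ' ∈ U` (`QuotientGroup.eq`)).
* `finite_cover`: by `exists_reps` (T/Reps) every `σ` agrees on `L` with some `s i`, i.e. `(s i)⁻¹ * σ ∈ U`, so `i ↦ mk (s i)` is onto.
* `cover_fix`: `u ∈ U`: `σ⁻¹ * (u * σ)` fixes `a ∈ L` because `σ a ∈ L` (`apply_mem_level`, T/Conj).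
* `cover_stab`: `s * σ ≡ σ` gives `σ⁻¹ * (s * σ) ∈ U`; apply it to `σ⁻¹ a ∈ L`.
-/
import Fermat.Agent.S19.T.Reps

set_option autoImplicit false

namespace Fermat.Agent.S19

variable (L : IntermediateField ℚ Qb) [FiniteDimensional ℚ L] [IsGalois ℚ L]

theorem finite_cover : Finite (Gal ⧸ L.fixingSubgroup) := by
  obtain ⟨n, s, hs⟩ := exists_reps L
  refine Finite.of_surjective (fun i : Fin n => (QuotientGroup.mk (s i) : Gal ⧸ L.fixingSubgroup)) ?_
  intro z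
  obtain ⟨σ, rfl⟩ := QuotientGroup.mk_surjective z
  obtain ⟨i, hi, -⟩ := hs σ
  refine ⟨i, ?_⟩
  rw [QuotientGroup.eq, IntermediateField.mem_fixingSubgroup_iff]
  intro a ha
  change (s i)⁻¹ (σ a) = a
  rw [hi a ha]
  exact AlgEquiv.symm_apply_apply (s i) a

theorem cover_fix (u : Gal) (hu : u ∈ L.fixingSubgroup) (z : Gal ⧸ L.fixingSubgroup) :
    u • z = z := by
  obtain ⟨σ, rfl⟩ := QuotientGroup.mk_surjective z
  change (QuotientGroup.mk (u * σ) : Gal ⧸ L.fixingSubgroup) = QuotientGroup.mk σ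
  rw [QuotientGroup.eq, IntermediateField.mem_fixingSubgroup_iff]
  intro a ha
  rw [IntermediateField.mem_fixingSubgroup_iff] at hu
  change (u * σ)⁻¹ (σ a) = a
  have h1 : (u * σ) a = σ a := hu _ (apply_mem_level σ ha)
  rw [← h1]
  exact AlgEquiv.symm_apply_apply (u * σ) a

theorem cover_stab (z : Gal ⧸ L.fixingSubgroup) (s : Gal) (hs : s • z = z) (a : Qb) (ha : a ∈ L) :
    s a = a := by
  obtain ⟨σ, rfl⟩ := QuotientGroup.mk_surjective z
  have hs' : (QuotientGroup.mk (s * σ) : Gal ⧸ L.fixingSubgroup) = QuotientGroup.mk σ := hs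
  rw [QuotientGroup.eq, IntermediateField.mem_fixingSubgroup_iff] at hs'
  have h1 := hs' (σ⁻¹ a) (apply_mem_level σ⁻¹ ha)
  have h2 : (s * σ)⁻¹ (σ (σ⁻¹ a)) = σ⁻¹ a := h1
  rw [show σ (σ⁻¹ a) = a from AlgEquiv.apply_symm_apply σ a] at h2
  have h3 := congrArg (s * σ) h2
  rw [show (s * σ) ((s * σ)⁻¹ a) = a from AlgEquiv.apply_symm_apply (s * σ) a] at h3
  have h4 : (s * σ) (σ⁻¹ a) = s a := by
    change s (σ (σ⁻¹ a)) = s a
    rw [show σ (σ⁻¹ a) = a from AlgEquiv.apply_symm_apply σ a]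
  rw [← h4]
  exact h3.symm

end Fermat.Agent.S19
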