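/-
S19-LD1 (block LOC-D, architect helper92).  The `A`-span of the equivariant integral functions contains `p^c (Y → A)`; it spans
all functions over `ℚ̄`.
Sketches.
* `exists_inSpan_conductor`: `S := {s | IsIntEquiv p s}` is `A`-valued (`mem_of_isIntegral`, S19/BaseRing) and separates points
  (`exists_isEqv_ne` (T/Separate) gives an equivariant `φ`; a nonzero integer multiple is integral:
  `IntEquivFG.exists_smul_isIntEquiv`, or multiply by a power of `p` and use `isIntEquiv_of_isEqv` (T/Order) with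
  `exists_pow_mul_mem_finite` (T/Val) - but that needs all conjugates, so prefer the first).  `exists_conductor hA S ..` (T/Conductor) gives `c` with
  `ψ ∈ Algebra.adjoin A S`; then `Algebra.adjoin_induction` with `InSpan.of_intEquiv, InSpan.const, InSpan.add, InSpan.mul` (S19/InSpan).
* `exists_qbar_span`: `c'` with `p^c' * φ y ∈ A` for all `y` (`exists_pow_mul_mem_finite`); `p^(c+c') • φ` is `InSpan`; divide the coefficients.
-/
import Fermat.Agent.S19.InSpan
import Fermat.Agent.S19.T.Order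

set_option autoImplicit false

namespace Fermat.Agent.S19

open scoped Pointwise

variable {p : ℕ} [Fact p.Prime] {A : ValuationSubring Qb}

theorem exists_inSpan_conductor (hA : A.LiesOverPrime p) {Y : Type} [Finite Y] [MulAction Gal Y]
    (hY : IsSmoothAct Y) :
    ∃ c : ℕ, ∀ ψ : Y → Qb, (∀ y, DivBy A p c (ψ y)) → InSpan p A ψ := by
  classical
  have := Fintype.ofFinite Y
  set S : Set (Y → Qb) := {s | IsIntEquiv p s} with hS
  have h0 : ∀ φ ∈ S, ∀ y, φ y ∈ A := fun φ hφ y => mem_of_isIntegral p _ (hφ.2 y) A hA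
  have hsep : ∀ x y : Y, x ≠ y → ∃ φ ∈ S, φ x ≠ φ y := by
    intro x y hxy
    obtain ⟨φ, hφe, hφ⟩ := exists_isEqv_ne hY hxy
    obtain ⟨m, hm, hmφ⟩ := IntEquivFG.exists_smul_isIntEquiv (p := p) (f := φ) hφe
    refine ⟨m • φ, hmφ, fun h => hφ ?_⟩
    have h1 : m • φ x = m • φ y := h
    rw [Algebra.smul_def, Algebra.smul_def] at h1
    exact mul_left_cancel₀ (by simpa using hm) h1
  obtain ⟨c, hc⟩ := exists_conductor hA S h0 hsep
  refine ⟨c, fun ψ hψ => ?_⟩
  have h1 := hc ψ hψ
  clear hψ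
  induction h1 using Algebra.adjoin_induction with
  | mem x hx => exact InSpan.of_intEquiv hx
  | algebraMap r => exact InSpan.const r.2
  | add x y _ _ hx hy => exact hx.add hy
  | mul x y _ _ hx hy => exact hx.mul hy

theorem exists_qbar_span (hA : A.LiesOverPrime p) {Y : Type} [Finite Y] [MulAction Gal Y]
    (hY : IsSmoothAct Y) (φ : Y → Qb) :
    ∃ (n : ℕ) (x : Fin n → Qb) (g : Fin n → Y → Qb), (∀ j, IsIntEquiv p (g j)) ∧
      φ = fun y => ∑ j, x j * g j y := by
  obtain ⟨c, hc⟩ := exists_inSpan_conductor (p := p) hA hY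
  obtain ⟨c', hc'⟩ := exists_pow_mul_mem_finite hA φ
  have hp0 : (p : Qb) ≠ 0 := by
    have := (Fact.out : p.Prime).ne_zero
    exact_mod_cast this
  obtain ⟨n, a, g, -, hg, h⟩ := hc (fun y => (p : Qb) ^ c * ((p : Qb) ^ c' * φ y))
    (fun y => ⟨_, hc' y, rfl⟩)
  refine ⟨n, fun j => ((p : Qb) ^ c * (p : Qb) ^ c')⁻¹ * a j, g, hg, ?_⟩
  funext y
  have h1 := congrFun h y
  simp only [mul_assoc]
  rw [← Finset.mul_sum, ← h1]
  field_simp

end Fermat.Agent.S19
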