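/-
S19-LD2 (block LOC-D, architect helper92).  An `A`-valued function invariant under inertia and Frobenius is in the `A`-span.
Sketch.  `c` from `exists_inSpan_conductor`; `ψ'` from `exists_isEqv_approx hA hFr hY ψ hψA hinv c` (T/Average).  `ψ' y = ψ y - (ψ y - ψ' y) ∈ A`
(`DivBy.mem`), so `ψ'` is `IsIntEquiv` (`isIntEquiv_of_isEqv`, T/Order), hence `InSpan`; `ψ - ψ'` is `InSpan` by the conductor; `InSpan.add`.
-/
import Fermat.Agent.S19.LocD.Span
import Fermat.Agent.S19.T.Average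

set_option autoImplicit false

namespace Fermat.Agent.S19

open scoped Pointwise

variable {p : ℕ} [Fact p.Prime] {A : ValuationSubring Qb}

theorem inSpan_of_isLocInv (hA : A.LiesOverPrime p) {Fr : Gal} (hFr : A.IsFrobeniusAt Fr p)
    {Y : Type} [Finite Y] [MulAction Gal Y] (hY : IsSmoothAct Y) (ψ : Y → Qb)
    (hψA : ∀ y, ψ y ∈ A) (hinv : IsLocInv A Fr ψ) : InSpan p A ψ := by
  obtain ⟨c, hc⟩ := exists_inSpan_conductor (p := p) hA hY
  obtain ⟨ψ', hψ'e, hψ'⟩ := exists_isEqv_approx hA hFr hY ψ hψA hinv c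
  have h1 : ∀ y, ψ' y ∈ A := by
    intro y
    have := A.sub_mem (hψA y) (hψ' y).mem
    rwa [sub_sub_cancel] at this
  have h2 : InSpan p A ψ' := InSpan.of_intEquiv (isIntEquiv_of_isEqv hA hψ'e h1)
  have h3 : InSpan p A (fun y => ψ y - ψ' y) := hc _ hψ'
  have h4 := h2.add h3
  have h5 : ψ' + (fun y => ψ y - ψ' y) = ψ := by
    funext y
    simp
  rwa [h5] at h4

end Fermat.Agent.S19
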