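/-
S19-LD4 (block LOC-D, architect helper92).  LOC-D on a `G`-set whose point stabilisers fix `L`.
Sketch.  `D := A.decompositionSubgroup ℚ` acts on `Y` (`Subgroup` action); `Ω := MulAction.orbitRel.Quotient D Y` is finite; for `q : Ω` let
`y_q := q.out` and choose `(n, a, c)` from `h y_q`.  Claim `φ = ∑ q, ∑ k, a_q k • orbFun A y_q (c_q k)`: at `y`, write `y = s • y_q₀` with `q₀ = ⟦y⟧`, `s ∈ D`
(`Quotient.out_eq`, `MulAction.orbitRel_apply`, `MulAction.mem_orbit_iff`); the terms `q ≠ q₀` vanish (`orbFun_of_not`: otherwise `y` would be in the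
orbit of `y_q`, so `q = q₀`), the term `q₀` is `∑ k, a k * s (c k) = φ (s • y_q₀)` (`orbFun_smul`, with `hb` from `hstab` and `c k ∈ L`).
Each `orbFun` is `InSpan` by `inSpan_of_isLocInv` (`Fr` from `Fermat.Agent.Lib.Frobenius.exists_isFrobeniusAt`), `isLocInv_orbFun`, `orbFun_mem`;
close with `InSpan.const`/`InSpan.mul`/`InSpan.add` (finite sums by induction; `inSpan_iff_mem_span` makes this `Submodule.sum_mem`, `smul_mem`).
-/
import Fermat.Agent.S19.LocD.LocInv
import Fermat.Agent.S19.LocD.Orbit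

set_option autoImplicit false
set_option linter.style.haveILetI false

namespace Fermat.Agent.S19

open scoped Pointwise

variable {p : ℕ} [Fact p.Prime] {A : ValuationSubring Qb}

theorem inSpan_of_local_free (hA : A.LiesOverPrime p) {Y : Type} [Finite Y] [MulAction Gal Y]
    (hY : IsSmoothAct Y) (L : IntermediateField ℚ Qb)
    (hstab : ∀ (y : Y) (s : Gal), s • y = y → ∀ a ∈ L, s a = a) (φ : Y → Qb)
    (h : ∀ y₀ : Y, ∃ (n : ℕ) (a c : Fin n → Qb), (∀ k, a k ∈ A) ∧ (∀ k, c k ∈ A) ∧ (∀ k, c k ∈ L) ∧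
      ∀ s ∈ A.decompositionSubgroup ℚ, φ (s • y₀) = ∑ k, a k * s (c k)) :
    InSpan p A φ := by
  classical
  obtain ⟨Fr, hFr⟩ := Fermat.Agent.Lib.Frobenius.exists_isFrobeniusAt A p Fact.out hA
  choose n a c ha hc hcL hφ using h
  set D := A.decompositionSubgroup ℚ with hD
  let Ω := MulAction.orbitRel.Quotient D Y
  haveI : Finite Ω := Quotient.finite _
  have := Fintype.ofFinite Ω
  have hb : ∀ (y₀ : Y) (k : Fin (n y₀)), ∀ s ∈ A.decompositionSubgroup ℚ, s • y₀ = y₀ →
      s (c y₀ k) = c y₀ k := fun y₀ k s _ hs => hstab y₀ s hs _ (hcL y₀ k)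
  have hsum : φ = ∑ q : Ω, ∑ k : Fin (n q.out), (fun _ => a q.out k) * orbFun A q.out (c q.out k) := by
    funext y
    simp only [Finset.sum_apply, Pi.mul_apply]
    set q₀ : Ω := Quotient.mk (MulAction.orbitRel D Y) y with hq₀
    have hrel : (MulAction.orbitRel D Y).r q₀.out y := Quotient.mk_out y
    have hrel' : q₀.out ∈ MulAction.orbit D y := hrel
    obtain ⟨d, hd⟩ := hrel'
    have hy : y = (d⁻¹ : D).1 • q₀.out := by
      have h1 : (d : Gal) • y = q₀.out := hd
      rw [← h1]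
      change y = (d : Gal)⁻¹ • (d : Gal) • y
      rw [inv_smul_smul]
    rw [Finset.sum_eq_single q₀]
    · conv_lhs => rw [hy]
      rw [hφ q₀.out _ (d⁻¹ : D).2]
      refine Finset.sum_congr rfl fun k _ => ?_
      conv_rhs => rw [hy]
      rw [orbFun_smul (hb q₀.out k) (d⁻¹ : D).2]
    · intro q _ hq
      refine Finset.sum_eq_zero fun k _ => ?_
      rw [orbFun_of_not, mul_zero]
      rintro ⟨s, hs, hsy⟩
      apply hq
      rw [← Quotient.out_eq q, hq₀]
      apply Quotient.sound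
      change q.out ∈ MulAction.orbit D y
      refine ⟨(⟨s, hs⟩ : D)⁻¹, ?_⟩
      change s⁻¹ • y = q.out
      rw [← hsy, inv_smul_smul]
    · intro hq
      exact absurd (Finset.mem_univ q₀) hq
  rw [hsum, inSpan_iff_mem_span]
  refine Submodule.sum_mem _ fun q _ => Submodule.sum_mem _ fun k _ => ?_
  rw [← inSpan_iff_mem_span]
  exact (InSpan.const (ha q.out k)).mul
    (inSpan_of_isLocInv hA hFr hY _ (orbFun_mem (hc q.out k)) (isLocInv_orbFun hFr (hb q.out k)))

end Fermat.Agent.S19
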