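/-
S19-LD5 (block LOC-D, helper92).  Membership in the `A`-span descends along a surjection of finite `G`-sets.
The module of integral equivariant functions pulled back from `Y` is a saturated submodule of the finite module of all integral equivariant
functions on `Y'`, hence the image of a projection `P`; apply `P` to the coordinates.
-/
import Fermat.Agent.S19.LocD.Span
import Fermat.Agent.S19.ClosureQuot
import Fermat.Agent.S19.TheoremA

set_option autoImplicit false
set_option linter.style.haveILetI false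

namespace Fermat.Agent.S19

open scoped Pointwise

variable {p : ℕ} [Fact p.Prime] {A : ValuationSubring Qb}

theorem InSpan.of_comp_surjective_locD (hA : A.LiesOverPrime p) {Y Y' : Type} [Finite Y] [Finite Y']
    [MulAction Gal Y] [MulAction Gal Y'] (hY : IsSmoothAct Y) (π : Y' → Y)
    (hπ : Function.Surjective π) (heq : ∀ (σ : Gal) (y : Y'), π (σ • y) = σ • π y)
    {φ : Y → Qb} (h : InSpan p A (φ ∘ π)) : InSpan p A φ := by
  classical
  haveI := Rl_isPrincipalIdealRing p
  obtain ⟨r, s, hs_int, hs_li, hs_span⟩ := fg_intEquiv p (W := Y')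
  have hsQ : LinearIndependent Qb s :=
    linearIndependent_of_equivariant' p s (fun i => (hs_int i).1) hs_li
  obtain ⟨x, hxA, hx⟩ := InSpan.exists_coeff hA hs_span h
  obtain ⟨m, y, g, hg_int, hφ⟩ := exists_qbar_span hA hY φ
  set N : Submodule (Rl p) (Y' → Qb) := IntEquivFG.intSub p Y' with hN
  let sN : Fin r → N := fun i => ⟨s i, hs_int i⟩
  have hspanN : ∀ f : N, ∃ c : Fin r → Rl p, f = ∑ i, c i • sN i := by
    intro f
    obtain ⟨c, hc⟩ := hs_span f.1 f.2
    refine ⟨c, Subtype.ext ?_⟩
    rw [hc]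
    funext w
    simp only [Submodule.coe_sum, Submodule.coe_smul, Finset.sum_apply, Pi.smul_apply]
    rfl
  haveI : Module.Finite (Rl p) N := by
    refine ⟨⟨Finset.univ.image sN, ?_⟩⟩
    rw [eq_top_iff]
    intro f _
    obtain ⟨c, rfl⟩ := hspanN f
    exact Submodule.sum_mem _ fun i _ => Submodule.smul_mem _ _
      (Submodule.subset_span (by simp))
  let S : Submodule (Rl p) N :=
    { carrier := {f | ∀ y₁ y₂, π y₁ = π y₂ → f.1 y₁ = f.1 y₂}
      add_mem' := by
        intro a b ha hb y₁ y₂ h12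
        change a.1 y₁ + b.1 y₁ = a.1 y₂ + b.1 y₂
        rw [ha y₁ y₂ h12, hb y₁ y₂ h12]
      zero_mem' := fun _ _ _ => rfl
      smul_mem' := by
        intro c a ha y₁ y₂ h12
        change c • a.1 y₁ = c • a.1 y₂
        rw [ha y₁ y₂ h12] }
  have hsat : ∀ (c : Rl p) (f : N), c ≠ 0 → c • f ∈ S → f ∈ S := by
    intro c f hc hf y₁ y₂ h12
    have h1 : c • f.1 y₁ = c • f.1 y₂ := hf y₁ y₂ h12
    have hc' : algebraMap (Rl p) Qb c ≠ 0 := by
      intro h0
      apply hc
      have h2 : algebraMap ℚ Qb (c : ℚ) = 0 := h0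
      have h3 : (c : ℚ) = 0 := by simpa using h2
      exact Subtype.ext h3
    rw [Algebra.smul_def, Algebra.smul_def] at h1
    exact mul_left_cancel₀ hc' h1
  obtain ⟨P, hPS, hPid⟩ := ClosureQuot.exists_projection S hsat
  let t : Fin r → Y' → Qb := fun i => (P (sN i)).1
  have ht_int : ∀ i, IsIntEquiv p (t i) := fun i => (P (sN i)).2
  have ht_fac : ∀ i y₁ y₂, π y₁ = π y₂ → t i y₁ = t i y₂ := fun i => hPS (sN i)
  -- the pulled back functions
  have hgπ : ∀ j, IsIntEquiv p (g j ∘ π) := by
    intro j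
    refine ⟨fun σ w => ?_, fun w => (hg_int j).2 _⟩
    change g j (π (σ • w)) = σ (g j (π w))
    rw [heq, (hg_int j).1]
  let gN : Fin m → N := fun j => ⟨g j ∘ π, hgπ j⟩
  have hgS : ∀ j, gN j ∈ S := by
    intro j y₁ y₂ h12
    change g j (π y₁) = g j (π y₂)
    rw [h12]
  choose c hc using fun j => hspanN (gN j)
  have hsm : ∀ (c : Rl p) (z : Qb), c • z = algebraMap ℚ Qb (c : ℚ) * z :=
    fun c z => Algebra.smul_def c z
  have hc1 : ∀ j w, g j (π w) = ∑ i, algebraMap ℚ Qb (c j i : ℚ) * s i w := by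
    intro j w
    have h1 := congrArg (fun f : N => f.1 w) (hc j)
    simp only [Submodule.coe_sum, Submodule.coe_smul, Finset.sum_apply, Pi.smul_apply, hsm] at h1
    exact h1
  have hc2 : ∀ j w, g j (π w) = ∑ i, algebraMap ℚ Qb (c j i : ℚ) * t i w := by
    intro j w
    have h0 : P (gN j) = gN j := hPid _ (hgS j)
    rw [hc j, map_sum] at h0
    simp only [map_smul] at h0
    have h1 := congrArg (fun f : N => f.1 w) h0
    simp only [Submodule.coe_sum, Submodule.coe_smul, Finset.sum_apply, Pi.smul_apply, hsm] at h1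
    rw [hc1 j w]
    exact h1.symm
  have hxc : x = fun i => ∑ j, y j * algebraMap ℚ Qb (c j i : ℚ) := by
    apply coeff_unique hsQ
    intro w
    rw [← hx w]
    change φ (π w) = _
    rw [hφ]
    simp only [hc1, Finset.mul_sum, Finset.sum_mul]
    rw [Finset.sum_comm]
    refine Finset.sum_congr rfl fun i _ => Finset.sum_congr rfl fun j _ => ?_
    ring
  have hmain : ∀ w, φ (π w) = ∑ i, x i * t i w := by
    intro w
    rw [hxc, hφ]
    simp only [hc2, Finset.mul_sum, Finset.sum_mul]
    rw [Finset.sum_comm]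
    refine Finset.sum_congr rfl fun i _ => Finset.sum_congr rfl fun j _ => ?_
    ring
  let hh : Fin r → Y → Qb := fun i z => t i (Function.surjInv hπ z)
  have hhπ : ∀ i w, hh i (π w) = t i w := fun i w =>
    ht_fac i _ _ (Function.surjInv_eq hπ (π w))
  refine ⟨r, x, hh, hxA, fun i => ⟨fun σ z => ?_, fun z => (ht_int i).2 _⟩, ?_⟩
  · obtain ⟨w, rfl⟩ := hπ z
    rw [← heq, hhπ, hhπ, (ht_int i).1]
  · funext z
    obtain ⟨w, rfl⟩ := hπ z
    rw [hmain w]
    exact Finset.sum_congr rfl fun i _ => by rw [hhπ]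

end Fermat.Agent.S19
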