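/-
S19-LD7 (block LOC-D, owner helper92).  LOC-D: membership in the `A`-span of the equivariant integral functions can be tested on the orbits of
the decomposition group, with arbitrary representatives.
-/
import Fermat.Agent.S19.LocD.Free
import Fermat.Agent.S19.LocD.Pull
import Fermat.Agent.S19.LocD.Cover

set_option autoImplicit false
set_option linter.style.haveILetI false

namespace Fermat.Agent.S19

open scoped Pointwise

variable {p : ℕ} [Fact p.Prime] {A : ValuationSubring Qb}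

/-- **LOC-D.** -/
theorem inSpan_of_local (hA : A.LiesOverPrime p) {W : Type} [Finite W] [MulAction Gal W]
    (hW : IsSmoothAct W) (φ : W → Qb)
    (h : ∀ w₀ : W, ∃ (n : ℕ) (a c : Fin n → Qb), (∀ k, a k ∈ A) ∧ (∀ k, c k ∈ A) ∧
      ∀ s ∈ A.decompositionSubgroup ℚ, φ (s • w₀) = ∑ k, a k * s (c k)) :
    InSpan p A φ := by
  classical
  choose n a c ha hc hφ using h
  -- a level containing all the `c w₀ k`
  obtain ⟨L, hLfd, hLgal, -, hLc, hLW⟩ :=
    exists_level hW (ι := Σ w₀ : W, Fin (n w₀)) (fun i _ => c i.1 i.2) ⊥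
  haveI := hLfd
  haveI := hLgal
  haveI := finite_cover L
  have hY : IsSmoothAct (W × (Gal ⧸ L.fixingSubgroup)) :=
    ⟨L, hLfd, fun σ hσ y => Prod.ext (hLW σ hσ y.1) (cover_fix L σ hσ y.2)⟩
  have h1 : InSpan p A (φ ∘ (Prod.fst : W × (Gal ⧸ L.fixingSubgroup) → W)) := by
    refine inSpan_of_local_free hA hY L
      (fun y s hs => cover_stab L y.2 s (congrArg Prod.snd hs)) _ fun y₀ => ?_
    exact ⟨n y₀.1, a y₀.1, c y₀.1, ha y₀.1, hc y₀.1, fun k => hLc ⟨y₀.1, k⟩ y₀.1,
      fun s hs => hφ y₀.1 s hs⟩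
  exact InSpan.of_comp_surjective_locD hA hW (Prod.fst : W × (Gal ⧸ L.fixingSubgroup) → W)
    (fun w => ⟨(w, ((1 : Gal) : Gal ⧸ L.fixingSubgroup)), rfl⟩) (fun _ _ => rfl) h1

end Fermat.Agent.S19
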