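/-
S19-LD3 (block LOC-D, architect helper92).  Orbit functions for the decomposition group `D = A.decompositionSubgroup ℚ`.
`orbFun A y₀ b` is `s • y₀ ↦ s b` on the `D`-orbit of `y₀` and `0` elsewhere; well defined if the stabiliser of `y₀` in `D` fixes `b`.
(Compare `separateFun` in T/Separate.lean, which is the same construction for the whole Galois group.)
Sketches.  `orbFun_smul`: `h.choose • y₀ = s • y₀` => `s⁻¹ * h.choose ∈ D` fixes `y₀`, so fixes `b`.
`gconj_orbFun`: `gconj d Ψ y = d (Ψ (d⁻¹ • y))`; `y` is in the orbit iff `d⁻¹ • y` is; if `d⁻¹ • y = s • y₀` then `y = (d * s) • y₀`.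
`orbFun_mem`: `s b ∈ A` because `s • A = A` (`ValuationSubring.mem_pointwise_smul_iff_inv_smul_mem` / `smul_mem_pointwise_smul`).
`isLocInv_orbFun`: inertia is contained in `D` (`A.inertiaSubgroupIn ℚ` is the image of a subgroup of `D`), `Fr ∈ D`
(`ValuationSubring.IsFrobeniusAt.mem_decompositionSubgroup`).
-/
import Fermat.Agent.S19.T.Conj

set_option autoImplicit false

namespace Fermat.Agent.S19

open scoped Pointwise

variable {A : ValuationSubring Qb} {Y : Type} [MulAction Gal Y]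

open Classical in
/-- `s • y₀ ↦ s b` on the `D`-orbit of `y₀`, zero elsewhere -/
noncomputable def orbFun (A : ValuationSubring Qb) (y₀ : Y) (b : Qb) : Y → Qb := fun y =>
  if h : ∃ s : Gal, s ∈ A.decompositionSubgroup ℚ ∧ s • y₀ = y then h.choose b else 0

theorem orbFun_smul {y₀ : Y} {b : Qb}
    (hb : ∀ s ∈ A.decompositionSubgroup ℚ, s • y₀ = y₀ → s b = b) {s : Gal}
    (hs : s ∈ A.decompositionSubgroup ℚ) : orbFun A y₀ b (s • y₀) = s b := by
  have h : ∃ s' : Gal, s' ∈ A.decompositionSubgroup ℚ ∧ s' • y₀ = s • y₀ := ⟨s, hs, rfl⟩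
  unfold orbFun
  rw [dif_pos h]
  have h1 : (s⁻¹ * h.choose) • y₀ = y₀ := by
    rw [mul_smul, h.choose_spec.2, inv_smul_smul]
  have h2 := hb _ (mul_mem (inv_mem hs) h.choose_spec.1) h1
  rw [AlgEquiv.mul_apply] at h2
  have h3 := congrArg s h2
  rwa [← AlgEquiv.mul_apply, mul_inv_cancel, AlgEquiv.one_apply] at h3

theorem orbFun_of_not {y₀ y : Y} {b : Qb}
    (h : ¬ ∃ s : Gal, s ∈ A.decompositionSubgroup ℚ ∧ s • y₀ = y) : orbFun A y₀ b y = 0 := by
  unfold orbFun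
  rw [dif_neg h]

theorem gconj_orbFun {y₀ : Y} {b : Qb}
    (hb : ∀ s ∈ A.decompositionSubgroup ℚ, s • y₀ = y₀ → s b = b) {d : Gal}
    (hd : d ∈ A.decompositionSubgroup ℚ) : gconj d (orbFun A y₀ b) = orbFun A y₀ b := by
  funext y
  rw [gconj_apply]
  by_cases h : ∃ s : Gal, s ∈ A.decompositionSubgroup ℚ ∧ s • y₀ = y
  · obtain ⟨s, hs, rfl⟩ := h
    rw [← mul_smul, orbFun_smul hb (mul_mem (inv_mem hd) hs), orbFun_smul hb hs,
      ← AlgEquiv.mul_apply, mul_inv_cancel_left]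
  · have h' : ¬ ∃ s : Gal, s ∈ A.decompositionSubgroup ℚ ∧ s • y₀ = d⁻¹ • y := by
      rintro ⟨s, hs, hsy⟩
      exact h ⟨d * s, mul_mem hd hs, by rw [mul_smul, hsy, smul_inv_smul]⟩
    rw [orbFun_of_not h, orbFun_of_not h', map_zero]

theorem locd_apply_mem {s : Gal} (hs : s ∈ A.decompositionSubgroup ℚ) {b : Qb} (hb : b ∈ A) :
    s b ∈ A := by
  have h1 : s • A = A := hs
  have h2 : s • b ∈ s • A := ValuationSubring.smul_mem_pointwise_smul s b A hb
  rw [h1] at h2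
  exact h2

theorem orbFun_mem {y₀ : Y} {b : Qb} (hbA : b ∈ A) (y : Y) : orbFun A y₀ b y ∈ A := by
  unfold orbFun
  split_ifs with h
  · exact locd_apply_mem h.choose_spec.1 hbA
  · exact A.zero_mem

theorem isLocInv_orbFun {p : ℕ} {Fr : Gal} (hFr : A.IsFrobeniusAt Fr p) {y₀ : Y} {b : Qb}
    (hb : ∀ s ∈ A.decompositionSubgroup ℚ, s • y₀ = y₀ → s b = b) :
    IsLocInv A Fr (orbFun A y₀ b) := by
  refine ⟨fun σ hσ => ?_, gconj_orbFun hb hFr.mem_decompositionSubgroup⟩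
  obtain ⟨τ, _, rfl⟩ := hσ
  exact gconj_orbFun hb τ.2

end Fermat.Agent.S19
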